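/-
Lib/Chebotarev, Part B (equidistribution of the norms of the degree one primes of a number field `E`
in the residue classes mod `m`): definitions.  Owner: helper32.
-/
import Fermat.Agent.Lib.Chebotarev.A.Main

set_option autoImplicit false

namespace Fermat.Agent.CH

open NumberField IsDedekindDomain Filter Topology
open scoped NumberField nonZeroDivisors Classical
open Fermat.Agent.S14.AN (nrm pnrm toIdl)
open Fermat.Agent.FD (lg BddDiff psum P1)

/-- `f` is bounded on `(1,2]`. -/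
def BddC (f : ℝ → ℂ) : Prop := ∃ B : ℝ, ∀ s : ℝ, 1 < s → s ≤ 2 → ‖f s‖ ≤ B

variable (E : Type) [Field E] [NumberField E] {m : ℕ}

/-- `χ(N v) N v^(-s)`. -/
noncomputable def fv (χ : DirichletCharacter ℂ m) (s : ℝ) (v : HeightOneSpectrum (𝓞 E)) : ℂ :=
  chiN E χ (toIdl E v) * (pnrm E s v : ℂ)

/-- `S_χ(s) = ∑_v χ(N v) N v^(-s)`. -/
noncomputable def Sf (χ : DirichletCharacter ℂ m) (s : ℝ) : ℂ := ∑' v, fv E χ s v

/-- `∑_v - log(1 - χ(N v) N v^(-s))`, a logarithm of `L(s, χ ∘ N)`. -/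
noncomputable def logL (χ : DirichletCharacter ℂ m) (s : ℝ) : ℂ :=
  ∑' v, -Complex.log (1 - fv E χ s v)

/-- the primes of degree one with norm `≡ a mod m`. -/
def Ta (a : ZMod m) : Set (HeightOneSpectrum (𝓞 E)) :=
  {v | v ∈ P1 E ∧ ((Ideal.absNorm v.asIdeal : ℕ) : ZMod m) = a}

/-- `χ` is trivial on the subgroup `H`. -/
def TrivOn (H : Subgroup (ZMod m)ˣ) (χ : DirichletCharacter ℂ m) : Prop :=
  ∀ h ∈ H, χ ((h : (ZMod m)ˣ) : ZMod m) = 1

end Fermat.Agent.CH
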