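/-
Lib/Chebotarev, Part B: Euler product: `L(s, χ ∘ N) = exp (logL s)` (task S48/CH-B-Euler).
-/
import Fermat.Agent.Lib.Chebotarev.B.Defs
import Fermat.Agent.S14.AN.Sieve
import Fermat.Agent.S14.AN.PrimeSums
import Fermat.Agent.S14.AN.Euler

set_option autoImplicit false

namespace Fermat.Agent.CH

open NumberField IsDedekindDomain Filter Topology
open scoped NumberField nonZeroDivisors Classical
open Fermat.Agent.S14.AN (nrm pnrm toIdl)
open Fermat.Agent.FD (lg BddDiff psum P1)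

variable (E : Type) [Field E] [NumberField E] {m : ℕ}

theorem norm_fv_le (χ : DirichletCharacter ℂ m) (s : ℝ) (v : HeightOneSpectrum (𝓞 E)) :
    ‖fv E χ s v‖ ≤ pnrm E s v := by
  sorry

/-- `FD.summable_pnrm`. -/
theorem summable_fv (χ : DirichletCharacter ℂ m) {s : ℝ} (hs : 1 < s) :
    Summable (fv E χ s) := by
  sorry

/-- PROOF. `f I = χ(N I) N I^(-s)` is a monoid homomorphism `(Ideal (𝓞 E))⁰ →* ℂ` with summable norm;
`Fermat.Agent.S14.AN.sieve_tendsto`: `(∏_{v ∈ T} (1 - f v)) * L → 1`.  `‖f v‖ ≤ 1/2`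
(`S14.AN.pnrm_le_half`), so `1 - f v = exp (log (1 - f v))` and `∑_v log (1 - f v)` converges
absolutely (`Complex.norm_log_one_add_le`-type bound `‖log(1+z)‖ ≤ 2‖z‖` for `‖z‖ ≤ 1/2`), hence
`∏_{v ∈ T} (1 - f v) = exp (∑_{v ∈ T} log(1 - f v)) → exp (- logL)`.  Uniqueness of limits:
`exp(-logL) * L = 1`. -/
theorem Lf_eq_exp (χ : DirichletCharacter ℂ m) {s : ℝ} (hs : 1 < s) :
    Lf E χ s = Complex.exp (logL E χ s) := by
  sorry

/-- PROOF. `‖-log(1 - z) - z‖ ≤ ‖z‖^2` for `‖z‖ ≤ 1/2` (`Complex.norm_log_one_add_sub_self_le` with `-z`),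
`∑_v N v^(-2s) ≤ C` (`S14.AN.sum_pnrm_sq_le`). -/
theorem bddC_logL_sub_Sf (χ : DirichletCharacter ℂ m) :
    BddC fun s => logL E χ s - Sf E χ s := by
  sorry

/-- PROOF. It is enough to prove continuity on `[1+δ, 2]` for every `δ > 0`
(every point of `Ioc 1 2` has a neighbourhood within `Ioc 1 2` of this form).
There: `continuousOn_tsum`, majorant `2 N v^(-(1+δ))`; each term is continuous in `s`
(`1 - f_s v` stays in the slit plane as `‖f_s v‖ ≤ 1/2`). -/
theorem continuousOn_logL (χ : DirichletCharacter ℂ m) :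
    ContinuousOn (logL E χ) (Set.Ioc 1 2) := by
  sorry

end Fermat.Agent.CH
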