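/-
Lib/Chebotarev, Part B: a continuous logarithm of a function with a nonzero limit is bounded
(task S48/CH-B-LogBranch).  Mathlib only.
-/
import Mathlib

set_option autoImplicit false

namespace Fermat.Agent.CH

open Filter Topology

/-- PROOF. Choose `w₀` with `exp w₀ = L₁` (`Complex.exp_log`), `g = f - w₀`: `exp (g s) → 1`.
There is `δ ∈ (0,1)` with `‖exp (g s) - 1‖ < 1/2` on `(1, 1+δ)`.  There `λ s := Complex.log (exp (g s))` is
continuous (`exp (g s)` lies in `Complex.slitPlane`; `ContinuousOn.clog`) and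
`‖λ s‖ ≤ 1` (e.g. `Complex.norm_log_one_add_le`-type estimate, or: `|log|z|| ≤ log 2`, `|arg z| ≤ π`:
`‖λ s‖ ≤ log 2 + π`).  `exp (g s - λ s) = 1`, so `g s - λ s ∈ 2πi ℤ` (`Complex.exp_eq_one_iff`); a continuous
function on the preconnected set `Ioo 1 (1+δ)` with values in the discrete set `2πiℤ` is constant
(`IsPreconnected.constant` after dividing by `2πi` and composing with a continuous map to `ℤ`, or:
`IsPreconnected.eqOn_const_of_mapsTo`; or directly: `s ↦ (g s - λ s)/(2πi)` is continuous, real,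
integer valued; intermediate value theorem).  So `f` is bounded on `(1, 1+δ)`.
On the compact `[1 + δ/2, 2] ⊆ Ioc 1 2` it is bounded by continuity
(`IsCompact.exists_bound_of_continuousOn`). -/
theorem bounded_of_exp_tendsto {f : ℝ → ℂ} (hf : ContinuousOn f (Set.Ioc 1 2)) {L₁ : ℂ}
    (hL : L₁ ≠ 0) (h : Tendsto (fun s => Complex.exp (f s)) (𝓝[>] 1) (𝓝 L₁)) :
    ∃ B : ℝ, ∀ s : ℝ, 1 < s → s ≤ 2 → ‖f s‖ ≤ B := by
  sorry

end Fermat.Agent.CH
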