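/-
Lib/Chebotarev, Part B: from the limit of `L(s, χ ∘ N)` to bounds for `S_χ(s)` (task S48/CH-B-Bounds).
-/
import Fermat.Agent.Lib.Chebotarev.B.Euler
import Fermat.Agent.Lib.Chebotarev.B.LogBranch

set_option autoImplicit false

namespace Fermat.Agent.CH

open NumberField IsDedekindDomain Filter Topology
open scoped NumberField nonZeroDivisors Classical
open Fermat.Agent.S14.AN (nrm pnrm toIdl)
open Fermat.Agent.FD (lg BddDiff psum P1)

variable (E : Type) [Field E] [NumberField E] {m : ℕ}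

/-- PROOF. `‖Lf s‖ ≤ ∑ N I^(-s) = zetaR E s ≤ zetaR E (1+δ)` for `s ≥ 1 + δ`
(`Fermat.Agent.S14.Zeta.zetaR_antitone`, or termwise `Real.rpow_le_rpow_of_exponent_le`);
`HasLim.exists_bound`. -/
theorem bddC_Lf (χ : DirichletCharacter ℂ m) (hlim : HasLim (Lf E χ)) : BddC (Lf E χ) := by
  refine hlim.exists_bound fun δ hδ => ⟨∑' I : (Ideal (𝓞 E))⁰, nrm E (1 + δ) I, fun s hs _ => ?_⟩
  have hsum : Summable (nrm E (1 + δ)) := Fermat.Agent.S14.AN.summable_nrm E (by linarith)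
  refine tsum_of_norm_bounded hsum.hasSum fun I => ?_
  have h1 : ‖chiN E χ I‖ ≤ 1 := DirichletCharacter.norm_le_one χ _
  have hN : (1 : ℝ) ≤ (Ideal.absNorm (I : Ideal (𝓞 E)) : ℝ) := by
    have h0 : Ideal.absNorm (I : Ideal (𝓞 E)) ≠ 0 := by
      rw [Ne, Ideal.absNorm_eq_zero_iff]
      exact nonZeroDivisors.coe_ne_zero I
    exact_mod_cast Nat.one_le_iff_ne_zero.mpr h0
  have h2 : nrm E s I ≤ nrm E (1 + δ) I :=
    Real.rpow_le_rpow_of_exponent_le hN (by linarith)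
  have h3 : 0 ≤ nrm E s I := Real.rpow_nonneg (Nat.cast_nonneg _) _
  rw [norm_mul, Complex.norm_real, Real.norm_of_nonneg h3]
  calc ‖chiN E χ I‖ * nrm E s I ≤ 1 * nrm E s I := mul_le_mul_of_nonneg_right h1 h3
    _ = nrm E s I := one_mul _
    _ ≤ nrm E (1 + δ) I := h2

/-- PROOF. `‖Lf s‖ = exp (Re logL s)` (`Lf_eq_exp`, `Complex.norm_exp`), `‖Lf s‖ ≤ B` (`bddC_Lf`; take
`B ≥ 1`), so `Re logL s ≤ log B`; `bddC_logL_sub_Sf`. -/
theorem re_Sf_le (χ : DirichletCharacter ℂ m) (hlim : HasLim (Lf E χ)) :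
    ∃ C : ℝ, ∀ s : ℝ, 1 < s → s ≤ 2 → (Sf E χ s).re ≤ C := by
  obtain ⟨B, hB⟩ := bddC_Lf E χ hlim
  obtain ⟨C', hC'⟩ := bddC_logL_sub_Sf E χ
  refine ⟨Real.log (max B 1) + C', fun s hs1 hs2 => ?_⟩
  have h1 : Real.exp (logL E χ s).re ≤ max B 1 := by
    rw [← Complex.norm_exp, ← Lf_eq_exp E χ hs1]
    exact (hB s hs1 hs2).trans (le_max_left _ _)
  have h2 : (logL E χ s).re ≤ Real.log (max B 1) := by
    rw [← Real.log_exp (logL E χ s).re]
    exact Real.log_le_log (Real.exp_pos _) h1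
  have h3 : |(logL E χ s - Sf E χ s).re| ≤ C' :=
    (Complex.abs_re_le_norm _).trans (hC' s hs1 hs2)
  rw [Complex.sub_re] at h3
  linarith [(abs_le.mp h3).1]

/-- PROOF. `Re logL s ≥ -C - C'` on `(1,2]`, so `‖Lf s‖ ≥ exp(-C-C') > 0`, so the limit `l` of `Lf` at `1+`
is `≠ 0` (`le_of_tendsto`/`ge_of_tendsto` for the norm).  `bounded_of_exp_tendsto` with `f = logL`
(`continuousOn_logL`, `Lf_eq_exp` + `Tendsto.congr'` on `Ioc 1 2 ∈ 𝓝[>] 1`): `logL` is bounded;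
`bddC_logL_sub_Sf`. -/
theorem bddC_Sf_of_re_ge (χ : DirichletCharacter ℂ m) (hlim : HasLim (Lf E χ))
    (hlow : ∃ C : ℝ, ∀ s : ℝ, 1 < s → s ≤ 2 → -C ≤ (Sf E χ s).re) : BddC (Sf E χ) := by
  obtain ⟨C, hC⟩ := hlow
  obtain ⟨C', hC'⟩ := bddC_logL_sub_Sf E χ
  obtain ⟨l, hl⟩ := hlim
  have hIoc : Set.Ioc (1 : ℝ) 2 ∈ 𝓝[>] (1 : ℝ) := Ioc_mem_nhdsGT (by norm_num)
  -- lower bound for the norm of `Lf`
  have hge : ∀ᶠ s in 𝓝[>] (1 : ℝ), Real.exp (-C - C') ≤ ‖Lf E χ s‖ := by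
    filter_upwards [hIoc] with s hs
    rw [Lf_eq_exp E χ hs.1, Complex.norm_exp]
    apply Real.exp_le_exp.mpr
    have h3 : |(logL E χ s - Sf E χ s).re| ≤ C' :=
      (Complex.abs_re_le_norm _).trans (hC' s hs.1 hs.2)
    rw [Complex.sub_re] at h3
    linarith [(abs_le.mp h3).1, hC s hs.1 hs.2]
  have hl0 : l ≠ 0 := by
    have h1 : Real.exp (-C - C') ≤ ‖l‖ := ge_of_tendsto hl.norm hge
    intro h0
    rw [h0, norm_zero] at h1
    exact absurd h1 (not_le.mpr (Real.exp_pos _))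
  have hexp : Tendsto (fun s => Complex.exp (logL E χ s)) (𝓝[>] 1) (𝓝 l) := by
    refine hl.congr' ?_
    filter_upwards [hIoc] with s hs
    exact Lf_eq_exp E χ hs.1
  obtain ⟨B, hB⟩ := bounded_of_exp_tendsto (continuousOn_logL E χ) hl0 hexp
  refine ⟨B + C', fun s hs1 hs2 => ?_⟩
  have h4 : Sf E χ s = logL E χ s - (logL E χ s - Sf E χ s) := by ring
  rw [h4]
  exact (norm_sub_le _ _).trans (add_le_add (hB s hs1 hs2) (hC' s hs1 hs2))

end Fermat.Agent.CH
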