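/-
Lib/Chebotarev, Part B: orthogonality of characters and the sums `S_χ`
(tasks S48/CH-B-CardTriv, S48/CH-B-Orth, S48/CH-B-Triv).
-/
import Fermat.Agent.Lib.Chebotarev.B.Euler

set_option autoImplicit false

namespace Fermat.Agent.CH

open NumberField IsDedekindDomain Filter Topology
open scoped NumberField nonZeroDivisors Classical
open Fermat.Agent.S14.AN (nrm pnrm toIdl)
open Fermat.Agent.FD (lg BddDiff psum P1)

variable (E : Type) [Field E] [NumberField E] {m : ℕ}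

/-- (task CH-B-CardTriv; no number fields) the number of characters which are trivial on `H`.
PROOF. `MulChar.equivToUnitHom : DirichletCharacter ℂ m ≃ ((ZMod m)ˣ →* ℂˣ)`; the characters trivial on `H`
correspond to the kernel of the restriction `((ZMod m)ˣ →* ℂˣ) → (H →* ℂˣ)`:
Mathlib `CommGroup.card_domRestrictHom_ker` (file `Mathlib/GroupTheory/FiniteAbelian/Duality.lean`), or:
restriction is surjective (`MonoidHom.restrict_surjective`) and
`CommGroup.card_monoidHom_of_hasEnoughRootsOfUnity` for `(ZMod m)ˣ` and `H`.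
`ZMod.card_units_eq_totient`. -/
theorem card_trivOn [NeZero m] (H : Subgroup (ZMod m)ˣ) :
    (Finset.univ.filter fun χ : DirichletCharacter ℂ m => TrivOn H χ).card * Nat.card H =
      m.totient := by
  sorry

/-- (task CH-B-Orth) PROOF. For `1 < s`: `∑_χ χ(a⁻¹) S_χ(s) = ∑'_v (∑_χ χ(a⁻¹) χ(N v)) N v^(-s)`
(`Summable.tsum_finsetSum`, `tsum_mul_left`, `summable_fv`) `= φ(m) ∑'_{v : N v ≡ a} N v^(-s)`
(`DirichletCharacter.sum_char_inv_mul_char_eq`).  The primes `v ∉ P1 E` contribute at most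
`C` (`S14.AN.sum_pnrm_not_prime_le`). -/
theorem bddC_sum_char_Sf [NeZero m] (a : (ZMod m)ˣ) :
    BddC fun s => ∑ χ : DirichletCharacter ℂ m, χ ((a : ZMod m)⁻¹) * Sf E χ s -
      ((m.totient : ℝ) * psum E (Ta E (a : ZMod m)) s : ℝ) := by
  sorry

/-- (task CH-B-Triv) PROOF. `S_χ(s) - psum (P1 E) s = ∑'_v (χ(N v) - [v ∈ P1]) N v^(-s)`; the term vanishes for
`v ∈ P1 E` with `N v ∉ B`; the `v ∉ P1 E` contribute `≤ C` (`S14.AN.sum_pnrm_not_prime_le`), the
`v ∈ P1 E` with `N v ∈ B` are finitely many: they divide `∏ B` (`FD.psum_dvd_le` or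
`S14.AN.sum_pnrm_dvd_le`), each term has norm `≤ 2`.  `FD.psum_P1`. -/
theorem bddC_Sf_sub_lg [NeZero m] (H : Subgroup (ZMod m)ˣ)
    (h1 : ∃ B : Finset ℕ, ∀ v ∈ P1 E, Ideal.absNorm v.asIdeal ∉ B →
      ∃ h ∈ H, ((Ideal.absNorm v.asIdeal : ℕ) : ZMod m) = ((h : (ZMod m)ˣ) : ZMod m))
    (χ : DirichletCharacter ℂ m) (hχ : TrivOn H χ) :
    BddC fun s => Sf E χ s - (lg s : ℂ) := by
  sorry

end Fermat.Agent.CH
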