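/-
Lib/Chebotarev, Part B: THEOREM B (task S48/CH-B-Main).
-/
import Fermat.Agent.Lib.Chebotarev.B.Bounds
import Fermat.Agent.Lib.Chebotarev.B.Char

set_option autoImplicit false

namespace Fermat.Agent.CH

open NumberField IsDedekindDomain Filter Topology
open scoped NumberField nonZeroDivisors Classical
open Fermat.Agent.S14.AN (nrm pnrm toIdl)
open Fermat.Agent.FD (lg BddDiff psum P1)

variable (E : Type) [Field E] [NumberField E] {m : ℕ}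

/-- **THEOREM B** (equidistribution of the norms of the degree one primes in `H`).
PROOF. `X₁ = {χ : TrivOn H χ}`, `X₂` = the other characters, `φ = m.totient`, `|X₁| |H| = φ` (`card_trivOn`).
(1) `χ ∈ X₂`: `h2` + `hasLim_Lf` (THEOREM A): `HasLim (Lf E χ)`; `re_Sf_le`: `Re S_χ ≤ C_χ`.
(2) `bddC_sum_char_Sf` with `a = 1` (`χ(1⁻¹) = 1`), real parts:
    `∑_χ Re S_χ ≥ φ psum(Ta 1) - C ≥ (φ/|H|) lg - C'` (`h3`);  `∑_{χ ∈ X₁} Re S_χ ≤ |X₁| lg + C''`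
    (`bddC_Sf_sub_lg`), and `|X₁| = φ/|H|`.  Hence `∑_{χ ∈ X₂} Re S_χ ≥ -C'''`, and with (1)
    `Re S_χ ≥ -C''''` for every single `χ ∈ X₂`.
(3) `bddC_Sf_of_re_ge`: `S_χ` is bounded for `χ ∈ X₂`.
(4) `a ∈ H`: `χ(a⁻¹) = 1` for `χ ∈ X₁` (`(a : ZMod m)⁻¹ = ((a⁻¹ : (ZMod m)ˣ) : ZMod m)`, `a⁻¹ ∈ H`), `‖χ(a⁻¹)‖ ≤ 1`
    in general; `bddC_sum_char_Sf`: `φ psum(Ta a) = |X₁| lg + O(1)`; multiply by `|H|/φ`. -/
theorem equidistribution [NeZero m] (H : Subgroup (ZMod m)ˣ)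
    (h1 : ∃ B : Finset ℕ, ∀ v ∈ P1 E, Ideal.absNorm v.asIdeal ∉ B →
      ∃ h ∈ H, ((Ideal.absNorm v.asIdeal : ℕ) : ZMod m) = ((h : (ZMod m)ˣ) : ZMod m))
    (h2 : ∀ χ : DirichletCharacter ℂ m, ¬ TrivOn H χ →
      ∃ 𝔟 : (Ideal (𝓞 E))⁰, (Ideal.absNorm (𝔟 : Ideal (𝓞 E))).Coprime m ∧ chiN E χ 𝔟 ≠ 1)
    (h3 : ∃ C : ℝ, ∀ s : ℝ, 1 < s → s ≤ 2 →
      lg s / Nat.card H - C ≤ psum E (Ta E (1 : ZMod m)) s)
    (a : (ZMod m)ˣ) (ha : a ∈ H) :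
    BddDiff (fun s => (Nat.card H : ℝ) * psum E (Ta E (a : ZMod m)) s) lg := by
  classical
  have hφpos : (0 : ℝ) < (m.totient : ℝ) :=
    Nat.cast_pos.2 (Nat.totient_pos.2 (Nat.pos_of_ne_zero (NeZero.ne m)))
  have hHpos : (0 : ℝ) < (Nat.card H : ℝ) := Nat.cast_pos.2 Nat.card_pos
  set X₁ : Finset (DirichletCharacter ℂ m) :=
    Finset.univ.filter fun χ : DirichletCharacter ℂ m => TrivOn H χ with hX₁
  set X₂ : Finset (DirichletCharacter ℂ m) :=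
    Finset.univ.filter fun χ : DirichletCharacter ℂ m => ¬ TrivOn H χ with hX₂
  have hmem₁ : ∀ χ, χ ∈ X₁ ↔ TrivOn H χ := fun χ => by simp [hX₁]
  have hmem₂ : ∀ χ, χ ∈ X₂ ↔ ¬ TrivOn H χ := fun χ => by simp [hX₂]
  have hcard : (X₁.card : ℝ) * (Nat.card H : ℝ) = (m.totient : ℝ) := by
    exact_mod_cast card_trivOn H
  have hsplit : ∀ {M : Type} [AddCommMonoid M] (f : DirichletCharacter ℂ m → M),
      ∑ χ, f χ = ∑ χ ∈ X₁, f χ + ∑ χ ∈ X₂, f χ := fun f =>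
    (Finset.sum_filter_add_sum_filter_not Finset.univ _ f).symm
  -- the trivial characters
  have hB' : ∀ χ : DirichletCharacter ℂ m, TrivOn H χ →
      ∃ B : ℝ, ∀ s : ℝ, 1 < s → s ≤ 2 → ‖Sf E χ s - (lg s : ℂ)‖ ≤ B :=
    fun χ hχ => bddC_Sf_sub_lg E H h1 χ hχ
  choose! B hB using hB'
  -- (1)
  have hlim : ∀ χ : DirichletCharacter ℂ m, ¬ TrivOn H χ → HasLim (Lf E χ) := by
    intro χ hχ
    obtain ⟨𝔟, hb, hb'⟩ := h2 χ hχ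
    exact hasLim_Lf E χ 𝔟 hb hb'
  have hC' : ∀ χ : DirichletCharacter ℂ m, ¬ TrivOn H χ →
      ∃ C : ℝ, ∀ s : ℝ, 1 < s → s ≤ 2 → (Sf E χ s).re ≤ C :=
    fun χ hχ => re_Sf_le E χ (hlim χ hχ)
  choose! C hC using hC'
  -- (2)
  obtain ⟨B₁, hB₁⟩ := bddC_sum_char_Sf E (m := m) (1 : (ZMod m)ˣ)
  obtain ⟨C₃, hC₃⟩ := h3
  have hlow : ∀ s : ℝ, 1 < s → s ≤ 2 →
      -((m.totient : ℝ) * C₃ + B₁ + ∑ χ ∈ X₁, B χ) ≤ ∑ χ ∈ X₂, (Sf E χ s).re := by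
    intro s hs1 hs2
    have h21 := hB₁ s hs1 hs2
    simp only [Units.val_one, ZMod.inv_one, map_one, one_mul] at h21
    have h22 := (Complex.abs_re_le_norm _).trans h21
    rw [Complex.sub_re, Complex.re_sum, Complex.ofReal_re, hsplit] at h22
    have h23 := (abs_le.1 h22).1
    have h24 := hC₃ s hs1 hs2
    have h25 : ∑ χ ∈ X₁, (Sf E χ s).re ≤ (X₁.card : ℝ) * lg s + ∑ χ ∈ X₁, B χ := by
      have : ∀ χ ∈ X₁, (Sf E χ s).re ≤ lg s + B χ := by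
        intro χ hχ
        have h1 := (Complex.re_le_norm _).trans (hB χ ((hmem₁ χ).1 hχ) s hs1 hs2)
        rw [Complex.sub_re, Complex.ofReal_re] at h1
        linarith
      refine (Finset.sum_le_sum this).trans (le_of_eq ?_)
      rw [Finset.sum_add_distrib, Finset.sum_const, nsmul_eq_mul]
    have h26 : (m.totient : ℝ) * (lg s / Nat.card H) = (X₁.card : ℝ) * lg s := by
      rw [← hcard]
      field_simp
    have h27 : (m.totient : ℝ) * (lg s / Nat.card H - C₃) ≤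
        (m.totient : ℝ) * psum E (Ta E (1 : ZMod m)) s :=
      mul_le_mul_of_nonneg_left h24 hφpos.le
    rw [mul_sub, h26] at h27
    linarith
  have hlow' : ∀ χ₀ : DirichletCharacter ℂ m, ¬ TrivOn H χ₀ →
      ∃ C' : ℝ, ∀ s : ℝ, 1 < s → s ≤ 2 → -C' ≤ (Sf E χ₀ s).re := by
    intro χ₀ hχ₀
    refine ⟨(m.totient : ℝ) * C₃ + B₁ + ∑ χ ∈ X₁, B χ + ∑ χ ∈ X₂.erase χ₀, C χ,
      fun s hs1 hs2 => ?_⟩
    have h1 := hlow s hs1 hs2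
    rw [← Finset.add_sum_erase X₂ _ ((hmem₂ χ₀).2 hχ₀)] at h1
    have h2 : ∑ χ ∈ X₂.erase χ₀, (Sf E χ s).re ≤ ∑ χ ∈ X₂.erase χ₀, C χ :=
      Finset.sum_le_sum fun χ hχ =>
        hC χ ((hmem₂ χ).1 (Finset.mem_of_mem_erase hχ)) s hs1 hs2
    linarith
  -- (3)
  have hD' : ∀ χ : DirichletCharacter ℂ m, ¬ TrivOn H χ →
      ∃ D : ℝ, ∀ s : ℝ, 1 < s → s ≤ 2 → ‖Sf E χ s‖ ≤ D :=
    fun χ hχ => bddC_Sf_of_re_ge E χ (hlim χ hχ) (hlow' χ hχ)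
  choose! D hD using hD'
  -- (4)
  obtain ⟨Ba, hBa⟩ := bddC_sum_char_Sf E (m := m) a
  have hainv : ((a : (ZMod m)ˣ) : ZMod m)⁻¹ = ((a⁻¹ : (ZMod m)ˣ) : ZMod m) := by
    rw [ZMod.inv_coe_unit]
  refine ⟨(Nat.card H : ℝ) / (m.totient : ℝ) * (Ba + ∑ χ ∈ X₁, B χ + ∑ χ ∈ X₂, D χ),
    fun s hs1 hs2 => ?_⟩
  have h41 := hBa s hs1 hs2
  beta_reduce at h41 ⊢
  rw [hsplit] at h41
  have h42 : ∑ χ ∈ X₁, χ ((a : ZMod m)⁻¹) * Sf E χ s = ∑ χ ∈ X₁, Sf E χ s := by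
    refine Finset.sum_congr rfl fun χ hχ => ?_
    rw [hainv, (hmem₁ χ).1 hχ _ (H.inv_mem ha), one_mul]
  rw [h42] at h41
  have h43 : ‖∑ χ ∈ X₁, Sf E χ s - ((X₁.card : ℝ) * lg s : ℝ)‖ ≤ ∑ χ ∈ X₁, B χ := by
    have : ∑ χ ∈ X₁, Sf E χ s - ((X₁.card : ℝ) * lg s : ℝ) = ∑ χ ∈ X₁, (Sf E χ s - (lg s : ℂ)) := by
      rw [Finset.sum_sub_distrib, Finset.sum_const, nsmul_eq_mul]
      push_cast
      ring
    rw [this]
    exact (norm_sum_le _ _).trans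
      (Finset.sum_le_sum fun χ hχ => hB χ ((hmem₁ χ).1 hχ) s hs1 hs2)
  have h44 : ‖∑ χ ∈ X₂, χ ((a : ZMod m)⁻¹) * Sf E χ s‖ ≤ ∑ χ ∈ X₂, D χ := by
    refine (norm_sum_le _ _).trans (Finset.sum_le_sum fun χ hχ => ?_)
    rw [norm_mul]
    calc ‖χ ((a : ZMod m)⁻¹)‖ * ‖Sf E χ s‖ ≤ 1 * ‖Sf E χ s‖ :=
          mul_le_mul_of_nonneg_right (DirichletCharacter.norm_le_one χ _) (norm_nonneg _)
      _ = ‖Sf E χ s‖ := one_mul _
      _ ≤ D χ := hD χ ((hmem₂ χ).1 hχ) s hs1 hs2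
  have h45 : |(m.totient : ℝ) * psum E (Ta E (a : ZMod m)) s - (X₁.card : ℝ) * lg s| ≤
      Ba + ∑ χ ∈ X₁, B χ + ∑ χ ∈ X₂, D χ := by
    rw [← Real.norm_eq_abs, ← Complex.norm_real]
    have : (((m.totient : ℝ) * psum E (Ta E (a : ZMod m)) s - (X₁.card : ℝ) * lg s : ℝ) : ℂ) =
        -(∑ χ ∈ X₁, Sf E χ s + ∑ χ ∈ X₂, χ ((a : ZMod m)⁻¹) * Sf E χ s -
            ((m.totient : ℝ) * psum E (Ta E (a : ZMod m)) s : ℝ)) +
          (∑ χ ∈ X₁, Sf E χ s - ((X₁.card : ℝ) * lg s : ℝ)) +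
          ∑ χ ∈ X₂, χ ((a : ZMod m)⁻¹) * Sf E χ s := by
      push_cast
      ring
    rw [this]
    refine (norm_add_le _ _).trans (add_le_add ((norm_add_le _ _).trans (add_le_add ?_ h43)) h44)
    rw [norm_neg]
    exact h41
  have h46 : (Nat.card H : ℝ) * psum E (Ta E (a : ZMod m)) s - lg s =
      (Nat.card H : ℝ) / (m.totient : ℝ) *
        ((m.totient : ℝ) * psum E (Ta E (a : ZMod m)) s - (X₁.card : ℝ) * lg s) := by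
    have hne : (m.totient : ℝ) ≠ 0 := hφpos.ne'
    have h1 : (Nat.card H : ℝ) / (m.totient : ℝ) * ((X₁.card : ℝ) * lg s) = lg s := by
      rw [div_mul_eq_mul_div, div_eq_iff hne, ← hcard]
      ring
    rw [mul_sub, h1]
    field_simp
  rw [h46, abs_mul, abs_of_pos (div_pos hHpos hφpos)]
  exact mul_le_mul_of_nonneg_left h45 (div_pos hHpos hφpos).le

end Fermat.Agent.CH
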